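/-
S55 / [KUMMER] (helper99), Part A: the Kummer pairing of a finite Galois extension `L/K`,
`K` containing a primitive `n`-th root of unity.  Mathlib only.  Quotient-free formulation:
`kummerSubgroup K L n = Kˣ ∩ Lˣⁿ`, pairing with values in `rootsOfUnity n K`, kernels, and the
index formula `[Kˣ ∩ Lˣⁿ : Kˣⁿ] = [L : K]` for abelian extensions of exponent `n`.
-/
import Mathlib

set_option autoImplicit false
set_option linter.unusedSectionVars false
set_option linter.style.haveILetI false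

open IntermediateField

noncomputable section

namespace Fermat.Agent.S55.Kummer99

variable (K L : Type*) [Field K] [Field L] [Algebra K L] (n : ℕ)

/-- `Kˣ ∩ Lˣⁿ`: the units of `K` that become `n`-th powers in `L`. -/
def kummerSubgroup : Subgroup Kˣ where
  carrier := {a | ∃ α : L, α ^ n = algebraMap K L (a : K)}
  one_mem' := ⟨1, by simp⟩
  mul_mem' := by
    rintro a b ⟨α, hα⟩ ⟨β, hβ⟩
    exact ⟨α * β, by rw [mul_pow, hα, hβ, Units.val_mul, map_mul]⟩
  inv_mem' := by
    rintro a ⟨α, hα⟩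
    refine ⟨α⁻¹, ?_⟩
    rw [inv_pow, hα, Units.val_inv_eq_inv_val, map_inv₀]

variable {K L n}

theorem mem_kummerSubgroup {a : Kˣ} :
    a ∈ kummerSubgroup K L n ↔ ∃ α : L, α ^ n = algebraMap K L (a : K) := Iff.rfl

variable (K L n)

/-- `Kˣⁿ ≤ Kˣ ∩ Lˣⁿ` -/
theorem range_pow_le : (powMonoidHom n : Kˣ →* Kˣ).range ≤ kummerSubgroup K L n := by
  rintro _ ⟨b, rfl⟩
  exact ⟨algebraMap K L (b : K), by simp [powMonoidHom_apply, map_pow]⟩

variable {K L n} [NeZero n]

theorem root_ne_zero {a : Kˣ} {α : L} (hα : α ^ n = algebraMap K L (a : K)) : α ≠ 0 := by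
  rintro rfl
  rw [zero_pow (NeZero.ne n)] at hα
  exact (map_ne_zero (algebraMap K L)).mpr a.ne_zero hα.symm

/-- the `n`-th roots of unity of `L` come from `K` -/
theorem exists_rootsOfUnity_eq {z : K} (hz : IsPrimitiveRoot z n) {ω : L} (hω : ω ^ n = 1) :
    ∃ u : rootsOfUnity n K, algebraMap K L ((u : Kˣ) : K) = ω := by
  have hz' : IsPrimitiveRoot (algebraMap K L z) n :=
    hz.map_of_injective (algebraMap K L).injective
  obtain ⟨i, _, hi⟩ := hz'.eq_pow_of_pow_eq_one hω
  have h1 : (z ^ i) ^ n = 1 := by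
    rw [← pow_mul, mul_comm, pow_mul, hz.pow_eq_one, one_pow]
  refine ⟨rootsOfUnity.mkOfPowEq (z ^ i) h1, ?_⟩
  rw [rootsOfUnity.coe_mkOfPowEq, map_pow, hi]

theorem rootsOfUnity_pow_eq_one (u : rootsOfUnity n K) : (((u : Kˣ) : K)) ^ n = 1 := by
  have := u.2
  rw [mem_rootsOfUnity] at this
  rw [← Units.val_pow_eq_pow_val, this, Units.val_one]

/-- existence of the value of the pairing -/
theorem exists_pairing {z : K} (hz : IsPrimitiveRoot z n) (σ : L ≃ₐ[K] L)
    (a : kummerSubgroup K L n) :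
    ∃ u : rootsOfUnity n K, ∀ α : L, α ^ n = algebraMap K L ((a : Kˣ) : K) →
      σ α = algebraMap K L ((u : Kˣ) : K) * α := by
  obtain ⟨α₀, hα₀⟩ := a.2
  have h0 : α₀ ≠ 0 := root_ne_zero hα₀
  have hω : (σ α₀ / α₀) ^ n = 1 := by
    rw [div_pow, ← map_pow, hα₀, σ.commutes, div_self]
    exact (map_ne_zero (algebraMap K L)).mpr (a : Kˣ).ne_zero
  obtain ⟨u, hu⟩ := exists_rootsOfUnity_eq hz hω
  refine ⟨u, fun α hα => ?_⟩
  have hv : (α / α₀) ^ n = 1 := by
    rw [div_pow, hα, hα₀, div_self]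
    exact (map_ne_zero (algebraMap K L)).mpr (a : Kˣ).ne_zero
  obtain ⟨v, hv'⟩ := exists_rootsOfUnity_eq hz hv
  have hα' : α = algebraMap K L ((v : Kˣ) : K) * α₀ := by
    rw [hv', div_mul_cancel₀ _ h0]
  have hσ : σ α₀ = algebraMap K L ((u : Kˣ) : K) * α₀ := by
    rw [hu, div_mul_cancel₀ _ h0]
  rw [hα', map_mul, σ.commutes, hσ]
  ring

/-- the value of the Kummer pairing -/
def pairingVal {z : K} (hz : IsPrimitiveRoot z n) (σ : L ≃ₐ[K] L)
    (a : kummerSubgroup K L n) : rootsOfUnity n K :=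
  (exists_pairing hz σ a).choose

theorem pairingVal_spec {z : K} (hz : IsPrimitiveRoot z n) (σ : L ≃ₐ[K] L)
    (a : kummerSubgroup K L n) (α : L) (hα : α ^ n = algebraMap K L ((a : Kˣ) : K)) :
    σ α = algebraMap K L ((pairingVal hz σ a : Kˣ) : K) * α :=
  (exists_pairing hz σ a).choose_spec α hα

theorem pairingVal_eq {z : K} (hz : IsPrimitiveRoot z n) (σ : L ≃ₐ[K] L)
    (a : kummerSubgroup K L n) (α : L) (hα : α ^ n = algebraMap K L ((a : Kˣ) : K))
    (u : rootsOfUnity n K) (h : σ α = algebraMap K L ((u : Kˣ) : K) * α) :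
    pairingVal hz σ a = u := by
  have h0 : α ≠ 0 := root_ne_zero hα
  have h1 := pairingVal_spec hz σ a α hα
  rw [h] at h1
  have h2 := mul_right_cancel₀ h0 h1
  have h3 := (algebraMap K L).injective h2
  exact (Subtype.ext (Units.ext h3)).symm

variable (K L n)

/-- **The Kummer pairing** `Gal(L/K) × (Kˣ ∩ Lˣⁿ) → μₙ(K)`, `(σ, a) ↦ σ(α)/α` for `αⁿ = a`. -/
def kummerPairing {z : K} (hz : IsPrimitiveRoot z n) :
    (L ≃ₐ[K] L) →* (kummerSubgroup K L n →* rootsOfUnity n K) where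
  toFun σ :=
    { toFun := fun a => pairingVal hz σ a
      map_one' := by
        apply pairingVal_eq hz σ 1 1 (by simp)
        simp
      map_mul' := by
        intro a b
        obtain ⟨α, hα⟩ := a.2
        obtain ⟨β, hβ⟩ := b.2
        apply pairingVal_eq hz σ (a * b) (α * β)
        · rw [mul_pow, hα, hβ, Subgroup.coe_mul, Units.val_mul, map_mul]
        · rw [map_mul, pairingVal_spec hz σ a α hα, pairingVal_spec hz σ b β hβ,
            Subgroup.coe_mul, Units.val_mul, map_mul]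
          ring }
  map_one' := by
    ext a : 1
    obtain ⟨α, hα⟩ := a.2
    apply pairingVal_eq hz 1 a α hα
    simp
  map_mul' := by
    intro σ τ
    ext a : 1
    obtain ⟨α, hα⟩ := a.2
    apply pairingVal_eq hz (σ * τ) a α hα
    rw [AlgEquiv.mul_apply, pairingVal_spec hz τ a α hα, map_mul, σ.commutes,
      pairingVal_spec hz σ a α hα, MonoidHom.mul_apply, MonoidHom.coe_mk, OneHom.coe_mk,
      MonoidHom.coe_mk, OneHom.coe_mk, Subgroup.coe_mul, Units.val_mul, map_mul]
    ring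

variable {K L n}

theorem kummerPairing_apply {z : K} (hz : IsPrimitiveRoot z n) (σ : L ≃ₐ[K] L)
    (a : kummerSubgroup K L n) : kummerPairing K L n hz σ a = pairingVal hz σ a := rfl

/-- the defining property of the pairing -/
theorem kummerPairing_spec {z : K} (hz : IsPrimitiveRoot z n) (σ : L ≃ₐ[K] L)
    (a : kummerSubgroup K L n) (α : L) (hα : α ^ n = algebraMap K L ((a : Kˣ) : K)) :
    σ α = algebraMap K L ((kummerPairing K L n hz σ a : Kˣ) : K) * α :=
  pairingVal_spec hz σ a α hα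

theorem kummerPairing_eq_one_iff {z : K} (hz : IsPrimitiveRoot z n) (σ : L ≃ₐ[K] L)
    (a : kummerSubgroup K L n) (α : L) (hα : α ^ n = algebraMap K L ((a : Kˣ) : K)) :
    kummerPairing K L n hz σ a = 1 ↔ σ α = α := by
  constructor
  · intro h
    have := kummerPairing_spec hz σ a α hα
    rw [h] at this
    simpa using this
  · intro h
    apply pairingVal_eq hz σ a α hα
    simp [h]


/-! ### abstract duality counting -/

section AbstractPairing

variable {G D R : Type*} [Group G] [Finite G] [CommGroup D] [CommRing R] [IsDomain R]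
  (m : ℕ) [NeZero m] [HasEnoughRootsOfUnity R m] (B : G →* (D →* Rˣ))

/-- the right kernel of a pairing -/
def rightKer : Subgroup D where
  carrier := {d | ∀ g, B g d = 1}
  one_mem' := fun g => map_one _
  mul_mem' := by
    intro a b ha hb g
    rw [map_mul, ha g, hb g, one_mul]
  inv_mem' := by
    intro a ha g
    rw [map_inv, ha g, inv_one]

theorem mem_rightKer {d : D} : d ∈ rightKer B ↔ ∀ g, B g d = 1 := Iff.rfl

include m in
theorem hasEnough_of_forall_pow (H : Type*) [CommGroup H] [Finite H] (hH : ∀ h : H, h ^ m = 1) :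
    HasEnoughRootsOfUnity R (Monoid.exponent H) :=
  HasEnoughRootsOfUnity.of_dvd R (Monoid.exponent_dvd_of_forall_pow_eq_one hH)

include m in
theorem card_monoidHom_units (H : Type*) [Group H] [Finite H] (hab : ∀ g h : H, g * h = h * g)
    (hH : ∀ h : H, h ^ m = 1) : Finite (H →* Rˣ) ∧ Nat.card (H →* Rˣ) = Nat.card H := by
  letI : CommGroup H := { (inferInstance : Group H) with mul_comm := hab }
  haveI := hasEnough_of_forall_pow (R := R) m H hH
  exact ⟨Finite.of_equiv H
    (CommGroup.monoidHom_mulEquiv_of_hasEnoughRootsOfUnity H R).some.symm.toEquiv,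
    CommGroup.card_monoidHom_of_hasEnoughRootsOfUnity H R⟩

include m in
theorem index_rightKer_aux (hab : ∀ g h : G, g * h = h * g) (hG : ∀ g : G, g ^ m = 1) :
    (rightKer B).index ≠ 0 ∧ (rightKer B).index ≤ Nat.card G := by
  obtain ⟨hfin, hcard⟩ := card_monoidHom_units (R := R) m G hab hG
  have hker : (B.flip).ker = rightKer B := by
    ext d
    rw [MonoidHom.mem_ker, mem_rightKer]
    constructor
    · intro h g
      have := congrArg (fun f => f g) h
      simpa using this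
    · intro h
      ext g : 1
      simpa using congrArg Units.val (h g)
  rw [← hker, Subgroup.index_ker]
  constructor
  · exact Nat.card_pos.ne'
  · calc Nat.card (B.flip).range ≤ Nat.card (G →* Rˣ) :=
          Nat.card_le_card_of_injective _ Subtype.val_injective
      _ = Nat.card G := hcard

include m in
theorem card_le_index_rightKer (hab : ∀ g h : G, g * h = h * g) (hG : ∀ g : G, g ^ m = 1)
    (hinj : Function.Injective B) :
    Nat.card G ≤ (rightKer B).index := by
  have h0 := (index_rightKer_aux m B hab hG).1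
  haveI : (rightKer B).FiniteIndex := ⟨h0⟩
  haveI : Finite (D ⧸ rightKer B) := Subgroup.finite_quotient_of_finiteIndex
  have hQ : ∀ q : D ⧸ rightKer B, q ^ m = 1 := by
    intro q
    obtain ⟨d, rfl⟩ := QuotientGroup.mk_surjective q
    rw [← QuotientGroup.mk_pow, QuotientGroup.eq_one_iff, mem_rightKer]
    intro g
    rw [map_pow, ← MonoidHom.pow_apply, ← map_pow, hG g, map_one, MonoidHom.one_apply]
  obtain ⟨hfin, hcard⟩ := card_monoidHom_units (R := R) m (D ⧸ rightKer B) mul_comm hQ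
  let Ψ : G → ((D ⧸ rightKer B) →* Rˣ) := fun g =>
    QuotientGroup.lift (rightKer B) (B g)
      (fun d hd => MonoidHom.mem_ker.mpr ((mem_rightKer B).mp hd g))
  have hΨ : Function.Injective Ψ := by
    intro g g' h
    apply hinj
    ext d : 1
    have := congrArg (fun f => f (QuotientGroup.mk d)) h
    simp only [Ψ] at this
    rwa [QuotientGroup.lift_mk, QuotientGroup.lift_mk] at this
  calc Nat.card G ≤ Nat.card ((D ⧸ rightKer B) →* Rˣ) := Nat.card_le_card_of_injective Ψ hΨ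
    _ = Nat.card (D ⧸ rightKer B) := hcard
    _ = (rightKer B).index := (Subgroup.index_eq_card _).symm

end AbstractPairing


/-! ### kernels of the Kummer pairing -/

section Kernels

variable {K L : Type*} [Field K] [Field L] [Algebra K L] {n : ℕ} [NeZero n]

/-- the right kernel is `Kˣⁿ` -/
theorem kummerPairing_right_ker {z : K} (hz : IsPrimitiveRoot z n) [FiniteDimensional K L]
    [IsGalois K L] (a : kummerSubgroup K L n) :
    (∀ σ, kummerPairing K L n hz σ a = 1) ↔
      (a : Kˣ) ∈ (powMonoidHom n : Kˣ →* Kˣ).range := by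
  obtain ⟨α, hα⟩ := a.2
  constructor
  · intro h
    have hfix : ∀ σ : L ≃ₐ[K] L, σ α = α := fun σ =>
      (kummerPairing_eq_one_iff hz σ a α hα).mp (h σ)
    obtain ⟨b, hb⟩ := (IsGalois.mem_range_algebraMap_iff_fixed α).mpr hfix
    have hb0 : b ≠ 0 := by
      rintro rfl
      rw [map_zero] at hb
      exact root_ne_zero hα hb.symm
    refine ⟨Units.mk0 b hb0, Units.ext ?_⟩
    apply (algebraMap K L).injective
    rw [powMonoidHom_apply, Units.val_pow_eq_pow_val, Units.val_mk0, map_pow, hb, hα]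
  · rintro ⟨b, hb⟩ σ
    have hroot : (algebraMap K L (b : K)) ^ n = algebraMap K L ((a : Kˣ) : K) := by
      rw [← map_pow, ← hb, powMonoidHom_apply, Units.val_pow_eq_pow_val]
    exact (kummerPairing_eq_one_iff hz σ a _ hroot).mpr (σ.commutes _)

/-- **Hilbert 90 for characters** (via Dedekind independence): every character of `Gal(L/K)` with
values in `μₙ(K)` has an eigenvector. -/
theorem exists_eigenvector [FiniteDimensional K L] (χ : (L ≃ₐ[K] L) →* rootsOfUnity n K) :
    ∃ α : L, α ≠ 0 ∧ ∀ σ : L ≃ₐ[K] L, σ α = algebraMap K L ((χ σ : Kˣ) : K) * α := by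
  classical
  let c : (L ≃ₐ[K] L) → L := fun τ => algebraMap K L (((χ τ)⁻¹ : rootsOfUnity n K) : Kˣ)
  have hc1 : c 1 ≠ 0 := by
    simp only [c, map_one, inv_one]
    simp
  have hli : LinearIndependent L (fun τ : L ≃ₐ[K] L => (τ : L →ₐ[K] L).toLinearMap) := by
    have h1 := linearIndependent_toLinearMap K L L
    exact h1.comp (fun τ : L ≃ₐ[K] L => (τ : L →ₐ[K] L))
      (fun τ τ' h => AlgEquiv.coe_toAlgHom_injective h)
  have hne : (∑ τ : L ≃ₐ[K] L, c τ • (τ : L →ₐ[K] L).toLinearMap) ≠ 0 := by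
    intro h0
    have := (Fintype.linearIndependent_iff.mp hli) c h0 1
    exact hc1 this
  obtain ⟨x, hx⟩ : ∃ x : L, (∑ τ : L ≃ₐ[K] L, c τ • (τ : L →ₐ[K] L).toLinearMap) x ≠ 0 := by
    by_contra hcon
    push Not at hcon
    exact hne (LinearMap.ext fun x => by simpa using hcon x)
  have hsum : (∑ τ : L ≃ₐ[K] L, c τ • (τ : L →ₐ[K] L).toLinearMap) x =
      ∑ τ : L ≃ₐ[K] L, c τ * τ x := by
    simp [LinearMap.sum_apply]
  rw [hsum] at hx
  refine ⟨∑ τ : L ≃ₐ[K] L, c τ * τ x, hx, fun σ => ?_⟩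
  rw [map_sum, Finset.mul_sum]
  -- reindex by `τ ↦ σ * τ`
  rw [← Equiv.sum_comp (Equiv.mulLeft σ) (fun ρ => algebraMap K L ((χ σ : Kˣ) : K) * (c ρ * ρ x))]
  refine Finset.sum_congr rfl fun τ _ => ?_
  have hcτ : σ (c τ) = c τ := σ.commutes _
  have hcστ : c (σ * τ) * algebraMap K L ((χ σ : Kˣ) : K) = c τ := by
    simp only [c, map_mul, mul_inv, Subgroup.coe_mul, Units.val_mul, Subgroup.coe_inv]
    rw [← map_mul, ← map_mul]
    congr 1
    rw [mul_comm (((χ σ : Kˣ)⁻¹ : Kˣ) : K), mul_assoc, ← Units.val_mul, inv_mul_cancel,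
      Units.val_one, mul_one]
  rw [map_mul, hcτ, Equiv.coe_mulLeft, AlgEquiv.mul_apply, ← hcστ]
  ring

/-- the fixed field of a single automorphism -/
def fixedBy (σ : L ≃ₐ[K] L) : IntermediateField K L where
  carrier := {x | σ x = x}
  mul_mem' := by
    intro x y hx hy
    show σ (x * y) = x * y
    rw [map_mul, hx, hy]
  add_mem' := by
    intro x y hx hy
    show σ (x + y) = x + y
    rw [map_add, hx, hy]
  algebraMap_mem' := fun r => σ.commutes r
  inv_mem' := by
    intro x hx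
    show σ x⁻¹ = x⁻¹
    rw [map_inv₀, hx]

theorem mem_fixedBy {σ : L ≃ₐ[K] L} {x : L} : x ∈ fixedBy σ ↔ σ x = x := Iff.rfl

/-- if `L` is generated by `n`-th roots of elements of `K`, the pairing is left-nondegenerate -/
theorem kummerPairing_left_ker_of_adjoin {z : K} (hz : IsPrimitiveRoot z n)
    (hgen : adjoin K {α : L | ∃ a : Kˣ, α ^ n = algebraMap K L (a : K)} = ⊤)
    (σ : L ≃ₐ[K] L) (h : ∀ a, kummerPairing K L n hz σ a = 1) : σ = 1 := by
  have hle : adjoin K {α : L | ∃ a : Kˣ, α ^ n = algebraMap K L (a : K)} ≤ fixedBy σ := by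
    rw [adjoin_le_iff]
    rintro α ⟨a, hα⟩
    exact (kummerPairing_eq_one_iff hz σ ⟨a, α, hα⟩ α hα).mp (h _)
  rw [hgen] at hle
  ext x
  exact hle (mem_top : x ∈ (⊤ : IntermediateField K L))

theorem kummerPairing_injective_of_adjoin {z : K} (hz : IsPrimitiveRoot z n)
    (hgen : adjoin K {α : L | ∃ a : Kˣ, α ^ n = algebraMap K L (a : K)} = ⊤) :
    Function.Injective (kummerPairing K L n hz) := by
  rw [injective_iff_map_eq_one]
  intro σ hσ
  apply kummerPairing_left_ker_of_adjoin hz hgen σ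
  intro a
  rw [hσ, MonoidHom.one_apply]

/-- a field generated by `n`-th roots has abelian Galois group ... -/
theorem comm_of_adjoin {z : K} (hz : IsPrimitiveRoot z n)
    (hgen : adjoin K {α : L | ∃ a : Kˣ, α ^ n = algebraMap K L (a : K)} = ⊤)
    (σ τ : L ≃ₐ[K] L) : σ * τ = τ * σ := by
  apply kummerPairing_injective_of_adjoin hz hgen
  rw [map_mul, map_mul, mul_comm]

/-- ... of exponent `n` -/
theorem pow_eq_one_of_adjoin {z : K} (hz : IsPrimitiveRoot z n)
    (hgen : adjoin K {α : L | ∃ a : Kˣ, α ^ n = algebraMap K L (a : K)} = ⊤)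
    (σ : L ≃ₐ[K] L) : σ ^ n = 1 := by
  apply kummerPairing_injective_of_adjoin hz hgen
  rw [map_pow, map_one]
  ext a : 1
  rw [MonoidHom.pow_apply, MonoidHom.one_apply]
  have := (kummerPairing K L n hz σ a).2
  rw [mem_rootsOfUnity] at this
  exact Subtype.ext this

/-- abelian of exponent `n` ⟹ left-nondegenerate -/
theorem kummerPairing_left_ker {z : K} (hz : IsPrimitiveRoot z n) [FiniteDimensional K L]
    [IsGalois K L] (hab : ∀ σ τ : L ≃ₐ[K] L, σ * τ = τ * σ) (hexp : ∀ σ : L ≃ₐ[K] L, σ ^ n = 1)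
    (σ : L ≃ₐ[K] L) (h : ∀ a, kummerPairing K L n hz σ a = 1) : σ = 1 := by
  by_contra hσ
  letI : CommGroup (L ≃ₐ[K] L) := { (inferInstance : Group (L ≃ₐ[K] L)) with mul_comm := hab }
  haveI : HasEnoughRootsOfUnity K n := ⟨⟨z, hz⟩, rootsOfUnity.isCyclic K n⟩
  haveI := hasEnough_of_forall_pow (R := K) n (L ≃ₐ[K] L) hexp
  obtain ⟨φ, hφ⟩ := CommGroup.exists_apply_ne_one_of_hasEnoughRootsOfUnity (L ≃ₐ[K] L) K hσ
  let χ : (L ≃ₐ[K] L) →* rootsOfUnity n K := φ.codRestrict (rootsOfUnity n K) (fun τ => by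
    rw [mem_rootsOfUnity, ← map_pow, hexp, map_one])
  obtain ⟨α, hα0, hα⟩ := exists_eigenvector χ
  have hfix : ∀ τ : L ≃ₐ[K] L, τ (α ^ n) = α ^ n := by
    intro τ
    rw [map_pow, hα τ, mul_pow, ← map_pow, rootsOfUnity_pow_eq_one, map_one, one_mul]
  obtain ⟨b, hb⟩ := (IsGalois.mem_range_algebraMap_iff_fixed (α ^ n)).mpr hfix
  have hb0 : b ≠ 0 := by
    rintro rfl
    rw [map_zero] at hb
    exact hα0 (pow_eq_zero_iff (NeZero.ne n) |>.mp hb.symm)
  have hroot : α ^ n = algebraMap K L ((Units.mk0 b hb0 : Kˣ) : K) := by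
    rw [Units.val_mk0, hb]
  have h1 := (kummerPairing_eq_one_iff hz σ ⟨Units.mk0 b hb0, α, hroot⟩ α hroot).mp (h _)
  rw [hα σ] at h1
  have h2 : algebraMap K L ((χ σ : Kˣ) : K) = 1 := by
    have := mul_right_cancel₀ hα0 (h1.trans (one_mul α).symm)
    exact this
  have h3 : ((χ σ : Kˣ) : K) = 1 := (algebraMap K L).injective (h2.trans (map_one _).symm)
  apply hφ
  have h4 : (χ σ : Kˣ) = φ σ := rfl
  rw [← h4]
  exact Units.ext h3

/-- **Kummer theory, generation**: a finite abelian extension of exponent `n` of a field with a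
primitive `n`-th root of unity is generated by `n`-th roots of elements of the base field. -/
theorem adjoin_roots_eq_top {z : K} (hz : IsPrimitiveRoot z n) [FiniteDimensional K L]
    [IsGalois K L] (hab : ∀ σ τ : L ≃ₐ[K] L, σ * τ = τ * σ) (hexp : ∀ σ : L ≃ₐ[K] L, σ ^ n = 1) :
    adjoin K {α : L | ∃ a : Kˣ, α ^ n = algebraMap K L (a : K)} = ⊤ := by
  have hfix : (adjoin K {α : L | ∃ a : Kˣ, α ^ n = algebraMap K L (a : K)}).fixingSubgroup = ⊥ := by
    rw [eq_bot_iff]
    intro σ hσ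
    rw [Subgroup.mem_bot]
    apply kummerPairing_left_ker hz hab hexp σ
    intro a
    obtain ⟨α, hα⟩ := a.2
    rw [kummerPairing_eq_one_iff hz σ a α hα]
    rw [IntermediateField.mem_fixingSubgroup_iff] at hσ
    exact hσ α (subset_adjoin K _ ⟨a, hα⟩)
  have h := IsGalois.fixedField_fixingSubgroup
    (adjoin K {α : L | ∃ a : Kˣ, α ^ n = algebraMap K L (a : K)})
  rw [hfix, IntermediateField.fixedField_bot] at h
  exact h.symm

/-! ### the index formula -/

/-- the pairing restricted to a subgroup `D₀ ≤ Kˣ ∩ Lˣⁿ`, with values in `Kˣ` -/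
def pairingHom {z : K} (hz : IsPrimitiveRoot z n) (D₀ : Subgroup Kˣ)
    (hD₀ : D₀ ≤ kummerSubgroup K L n) : (L ≃ₐ[K] L) →* (D₀ →* Kˣ) where
  toFun σ := ((rootsOfUnity n K).subtype.comp (kummerPairing K L n hz σ)).comp
    (Subgroup.inclusion hD₀)
  map_one' := by
    ext a : 1
    simp
  map_mul' := by
    intro σ τ
    ext a : 1
    simp

theorem pairingHom_apply {z : K} (hz : IsPrimitiveRoot z n) (D₀ : Subgroup Kˣ)
    (hD₀ : D₀ ≤ kummerSubgroup K L n) (σ : L ≃ₐ[K] L) (a : D₀) :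
    pairingHom hz D₀ hD₀ σ a = (kummerPairing K L n hz σ ⟨a, hD₀ a.2⟩ : Kˣ) := rfl

theorem hasEnough {z : K} (hz : IsPrimitiveRoot z n) : HasEnoughRootsOfUnity K n :=
  ⟨⟨z, hz⟩, rootsOfUnity.isCyclic K n⟩

theorem rightKer_pairingHom {z : K} (hz : IsPrimitiveRoot z n) [FiniteDimensional K L]
    [IsGalois K L] (D₀ : Subgroup Kˣ) (hD₀ : D₀ ≤ kummerSubgroup K L n) :
    rightKer (pairingHom hz D₀ hD₀) = ((powMonoidHom n : Kˣ →* Kˣ).range).subgroupOf D₀ := by
  ext a
  rw [mem_rightKer, Subgroup.mem_subgroupOf, ← kummerPairing_right_ker hz ⟨a, hD₀ a.2⟩]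
  constructor
  · intro h σ
    have := h σ
    rw [pairingHom_apply] at this
    exact Subtype.ext this
  · intro h σ
    rw [pairingHom_apply, h σ]
    rfl

/-- `[D₀ : Kˣⁿ]` is finite and at most `#Gal(L/K)` for `Kˣⁿ ≤ D₀ ≤ Kˣ ∩ Lˣⁿ` -/
theorem relIndex_ne_zero_and_le {z : K} (hz : IsPrimitiveRoot z n) [FiniteDimensional K L]
    [IsGalois K L] (hab : ∀ σ τ : L ≃ₐ[K] L, σ * τ = τ * σ) (hexp : ∀ σ : L ≃ₐ[K] L, σ ^ n = 1)
    (D₀ : Subgroup Kˣ) (hD₀ : D₀ ≤ kummerSubgroup K L n) :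
    (powMonoidHom n : Kˣ →* Kˣ).range.relIndex D₀ ≠ 0 ∧
      (powMonoidHom n : Kˣ →* Kˣ).range.relIndex D₀ ≤ Nat.card (L ≃ₐ[K] L) := by
  haveI := hasEnough hz
  have := index_rightKer_aux (R := K) n (pairingHom hz D₀ hD₀) hab hexp
  rwa [rightKer_pairingHom] at this

/-- if the pairing is left-nondegenerate on `D₀` then `#Gal(L/K) ≤ [D₀ : Kˣⁿ]` -/
theorem card_le_relIndex {z : K} (hz : IsPrimitiveRoot z n) [FiniteDimensional K L]
    [IsGalois K L] (hab : ∀ σ τ : L ≃ₐ[K] L, σ * τ = τ * σ) (hexp : ∀ σ : L ≃ₐ[K] L, σ ^ n = 1)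
    (D₀ : Subgroup Kˣ) (hD₀ : D₀ ≤ kummerSubgroup K L n)
    (hnd : ∀ σ : L ≃ₐ[K] L,
      (∀ a : D₀, kummerPairing K L n hz σ ⟨a, hD₀ a.2⟩ = 1) → σ = 1) :
    Nat.card (L ≃ₐ[K] L) ≤ (powMonoidHom n : Kˣ →* Kˣ).range.relIndex D₀ := by
  haveI := hasEnough hz
  have hinj : Function.Injective (pairingHom hz D₀ hD₀) := by
    rw [injective_iff_map_eq_one]
    intro σ hσ
    apply hnd
    intro a
    have := congrArg (fun f => f a) hσ
    simp only [pairingHom_apply, MonoidHom.one_apply] at this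
    exact Subtype.ext this
  have := card_le_index_rightKer (R := K) n _ hab hexp hinj
  rwa [rightKer_pairingHom] at this

/-- **Kummer theory, index formula**: `[Kˣ ∩ Lˣⁿ : Kˣⁿ] = [L : K]` for a finite abelian extension
of exponent `n`. -/
theorem relIndex_kummerSubgroup {z : K} (hz : IsPrimitiveRoot z n) [FiniteDimensional K L]
    [IsGalois K L] (hab : ∀ σ τ : L ≃ₐ[K] L, σ * τ = τ * σ) (hexp : ∀ σ : L ≃ₐ[K] L, σ ^ n = 1) :
    (powMonoidHom n : Kˣ →* Kˣ).range.relIndex (kummerSubgroup K L n) = Module.finrank K L := by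
  rw [← IsGalois.card_aut_eq_finrank]
  apply le_antisymm (relIndex_ne_zero_and_le hz hab hexp _ le_rfl).2
  apply card_le_relIndex hz hab hexp _ le_rfl
  intro σ h
  exact kummerPairing_left_ker hz hab hexp σ (fun a => h a)

/-- the same for a field generated by `n`-th roots -/
theorem relIndex_kummerSubgroup_of_adjoin {z : K} (hz : IsPrimitiveRoot z n)
    [FiniteDimensional K L] [IsGalois K L]
    (hgen : adjoin K {α : L | ∃ a : Kˣ, α ^ n = algebraMap K L (a : K)} = ⊤) :
    (powMonoidHom n : Kˣ →* Kˣ).range.relIndex (kummerSubgroup K L n) = Module.finrank K L :=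
  relIndex_kummerSubgroup hz (comm_of_adjoin hz hgen) (pow_eq_one_of_adjoin hz hgen)

end Kernels

end Fermat.Agent.S55.Kummer99
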