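/-
S55 / [KUMMER] (helper99), Part B: the Kummer extension `K(ⁿ√D)` inside an ambient field `Ω`
attached to a subgroup `Kˣⁿ ≤ D ≤ Kˣ` of finite index: finite, Galois, abelian of exponent `n`,
`Kˣ ∩ K(ⁿ√D)ˣⁿ = D`, `[K(ⁿ√D) : K] = [D : Kˣⁿ]`; monotone and order-reflecting in `D`; converse.
Mathlib + Part A only.
-/
import Fermat.Agent.S55.Kummer99.Pairing

set_option autoImplicit false
set_option linter.unusedSectionVars false
set_option linter.style.haveILetI false

open IntermediateField Polynomial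

noncomputable section

namespace Fermat.Agent.S55.Kummer99

variable (K Ω : Type*) [Field K] [Field Ω] [Algebra K Ω] (n : ℕ) (D : Subgroup Kˣ)

/-- all `n`-th roots in `Ω` of elements of `D` -/
def rootsOf : Set Ω := {α | ∃ a ∈ D, α ^ n = algebraMap K Ω ((a : Kˣ) : K)}

/-- the Kummer extension `K(ⁿ√D) ⊆ Ω` -/
def kummerField : IntermediateField K Ω := adjoin K (rootsOf K Ω n D)

variable {K Ω n}

theorem rootsOf_mono {D D' : Subgroup Kˣ} (h : D ≤ D') : rootsOf K Ω n D ⊆ rootsOf K Ω n D' := by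
  rintro α ⟨a, ha, hα⟩
  exact ⟨a, h ha, hα⟩

theorem kummerField_mono {D D' : Subgroup Kˣ} (h : D ≤ D') :
    kummerField K Ω n D ≤ kummerField K Ω n D' :=
  adjoin.mono K _ _ (rootsOf_mono h)

theorem mem_kummerField_of_root {D : Subgroup Kˣ} {a : Kˣ} (ha : a ∈ D) {α : Ω}
    (hα : α ^ n = algebraMap K Ω (a : K)) : α ∈ kummerField K Ω n D :=
  subset_adjoin K _ ⟨a, ha, hα⟩

variable [NeZero n]

theorem isIntegral_of_root {a : Kˣ} {α : Ω} (hα : α ^ n = algebraMap K Ω (a : K)) :
    IsIntegral K α := by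
  refine ⟨X ^ n - C (a : K), monic_X_pow_sub_C _ (NeZero.ne n), ?_⟩
  simp [hα]

/-- two `n`-th roots of elements differing by an `n`-th power differ by an element of `K` -/
theorem root_eq_mul {z : K} (hz : IsPrimitiveRoot z n) {a d b : Kˣ} (hab : a = d * b ^ n)
    {α β : Ω} (hα : α ^ n = algebraMap K Ω (a : K)) (hβ : β ^ n = algebraMap K Ω (d : K)) :
    ∃ c : K, α = algebraMap K Ω c * β := by
  have hβ0 : β ≠ 0 := root_ne_zero hβ
  have hb0 : algebraMap K Ω (b : K) ≠ 0 := (_root_.map_ne_zero _).mpr b.ne_zero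
  have h1 : (α / (β * algebraMap K Ω (b : K))) ^ n = 1 := by
    rw [div_pow, mul_pow, hα, hβ, hab, Units.val_mul, Units.val_pow_eq_pow_val, map_mul, map_pow,
      div_self]
    exact mul_ne_zero ((_root_.map_ne_zero _).mpr d.ne_zero) (pow_ne_zero _ hb0)
  obtain ⟨u, hu⟩ := exists_rootsOfUnity_eq hz h1
  refine ⟨((u : Kˣ) : K) * (b : K), ?_⟩
  rw [map_mul, hu]
  field_simp

section Finite

variable {z : K} (hz : IsPrimitiveRoot z n) {D : Subgroup Kˣ}
  (hfin : (powMonoidHom n : Kˣ →* Kˣ).range.relIndex D ≠ 0)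
  (hroot : ∀ a ∈ D, ∃ α : Ω, α ^ n = algebraMap K Ω ((a : Kˣ) : K))

include hz hfin hroot in
/-- `K(ⁿ√D)` is generated by finitely many roots -/
theorem exists_finite_generators :
    ∃ T : Set Ω, T.Finite ∧ T ⊆ rootsOf K Ω n D ∧ kummerField K Ω n D = adjoin K T := by
  classical
  haveI : ((powMonoidHom n : Kˣ →* Kˣ).range.subgroupOf D).FiniteIndex := ⟨hfin⟩
  haveI : Finite (D ⧸ (powMonoidHom n : Kˣ →* Kˣ).range.subgroupOf D) :=
    Subgroup.finite_quotient_of_finiteIndex
  let r : (D ⧸ (powMonoidHom n : Kˣ →* Kˣ).range.subgroupOf D) → Ω := fun q =>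
    (hroot (q.out : Kˣ) q.out.2).choose
  have hr : ∀ q, (r q) ^ n = algebraMap K Ω (((q.out : D) : Kˣ) : K) := fun q =>
    (hroot (q.out : Kˣ) q.out.2).choose_spec
  refine ⟨Set.range r, Set.finite_range r, ?_, ?_⟩
  · rintro _ ⟨q, rfl⟩
    exact ⟨(q.out : Kˣ), q.out.2, hr q⟩
  · apply le_antisymm
    · rw [kummerField, adjoin_le_iff]
      rintro α ⟨a, ha, hα⟩
      set q : D ⧸ (powMonoidHom n : Kˣ →* Kˣ).range.subgroupOf D := QuotientGroup.mk ⟨a, ha⟩
        with hq
      have hmem : (q.out)⁻¹ * ⟨a, ha⟩ ∈ (powMonoidHom n : Kˣ →* Kˣ).range.subgroupOf D := by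
        rw [← QuotientGroup.eq, QuotientGroup.out_eq']
      rw [Subgroup.mem_subgroupOf] at hmem
      obtain ⟨b, hb⟩ := hmem
      have hab : a = (q.out : Kˣ) * b ^ n := by
        have h1 : (b ^ n : Kˣ) = ((q.out : D) : Kˣ)⁻¹ * a := by
          rw [← powMonoidHom_apply, hb]
          simp
        rw [h1, mul_inv_cancel_left]
      obtain ⟨c, hc⟩ := root_eq_mul hz hab hα (hr q)
      rw [hc]
      exact mul_mem (IntermediateField.algebraMap_mem _ _) (subset_adjoin K _ ⟨q, rfl⟩)
    · apply adjoin.mono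
      rintro _ ⟨q, rfl⟩
      exact ⟨(q.out : Kˣ), q.out.2, hr q⟩

include hz hfin hroot in
theorem finiteDimensional_kummerField : FiniteDimensional K (kummerField K Ω n D) := by
  obtain ⟨T, hT, hTsub, hTeq⟩ := exists_finite_generators hz hfin hroot
  rw [hTeq]
  haveI : Finite T := hT
  apply IntermediateField.finiteDimensional_adjoin
  intro x hx
  obtain ⟨a, _, hα⟩ := hTsub hx
  exact isIntegral_of_root hα

end Finite


/-! ### `K(ⁿ√D)/K` is Galois -/

section Galois

variable {z : K} (hz : IsPrimitiveRoot z n) (D : Subgroup Kˣ)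

include hz in
theorem natCast_ne_zero_of_primitiveRoot : (n : K) ≠ 0 := by
  haveI := hz.neZero'
  exact NeZero.ne _

include hz in
theorem isSeparable_kummerField : Algebra.IsSeparable K (kummerField K Ω n D) := by
  rw [kummerField, isSeparable_adjoin_iff_isSeparable]
  rintro α ⟨a, _, hα⟩
  have hsep : (X ^ n - C (a : K)).Separable :=
    separable_X_pow_sub_C _ (natCast_ne_zero_of_primitiveRoot hz) a.ne_zero
  exact hsep.of_dvd (minpoly.dvd K α (by simp [hα]))

include hz in
theorem normal_kummerField : Normal K (kummerField K Ω n D) := by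
  have hzE : IsPrimitiveRoot (algebraMap K (kummerField K Ω n D) z) n :=
    hz.map_of_injective (algebraMap K (kummerField K Ω n D)).injective
  have hS : ∀ α ∈ rootsOf K Ω n D, IsIntegral K α ∧
      ((minpoly K α).map (algebraMap K (kummerField K Ω n D))).Splits := by
    rintro α ⟨a, ha, hα⟩
    refine ⟨isIntegral_of_root hα, ?_⟩
    have hmem : α ∈ kummerField K Ω n D := mem_kummerField_of_root ha hα
    have hpow : (⟨α, hmem⟩ : kummerField K Ω n D) ^ n =
        algebraMap K (kummerField K Ω n D) (a : K) := by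
      apply Subtype.ext
      rw [SubmonoidClass.coe_pow]
      exact hα
    have hsplit := X_pow_sub_C_splits_of_isPrimitiveRoot hzE hpow
    have hmap : (X ^ n - C (a : K)).map (algebraMap K (kummerField K Ω n D)) =
        X ^ n - C (algebraMap K (kummerField K Ω n D) (a : K)) := by
      simp
    have hdvd : (minpoly K α).map (algebraMap K (kummerField K Ω n D)) ∣
        (X ^ n - C (a : K)).map (algebraMap K (kummerField K Ω n D)) :=
      Polynomial.map_dvd _ (minpoly.dvd K α (by simp [hα]))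
    rw [hmap] at hdvd
    exact hsplit.of_dvd (monic_X_pow_sub_C _ (NeZero.ne n)).ne_zero hdvd
  rw [normal_iff]
  intro x
  have hsp := splits_of_mem_adjoin (F := K) (K := Ω) (L := kummerField K Ω n D) hS x.2
  have hint : IsIntegral K x := by
    have halg : Algebra.IsAlgebraic K (adjoin K (rootsOf K Ω n D)) :=
      isAlgebraic_adjoin (fun α hα => (hS α hα).1)
    exact (halg.isAlgebraic x).isIntegral
  refine ⟨hint, ?_⟩
  rw [IntermediateField.minpoly_eq]
  exact hsp

include hz in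
theorem isGalois_kummerField : IsGalois K (kummerField K Ω n D) :=
  isGalois_iff.mpr ⟨isSeparable_kummerField hz D, normal_kummerField hz D⟩

end Galois


/-! ### the Kummer group of `K(ⁿ√D)` -/

section Structure

variable {z : K} (hz : IsPrimitiveRoot z n) {D : Subgroup Kˣ}

/-- `K(ⁿ√D)`, as a field, is generated by the `n`-th roots of the elements of `D` it contains -/
theorem adjoin_rootsD_eq_top (D : Subgroup Kˣ) :
    adjoin K {β : kummerField K Ω n D | ∃ a ∈ D,
      β ^ n = algebraMap K (kummerField K Ω n D) ((a : Kˣ) : K)} = ⊤ := by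
  apply IntermediateField.lift_injective
  rw [lift_adjoin, lift_top]
  apply le_antisymm
  · rw [adjoin_le_iff]
    rintro _ ⟨β, _, rfl⟩
    exact β.2
  · rw [kummerField, adjoin_le_iff]
    rintro α ⟨a, ha, hα⟩
    apply subset_adjoin
    refine ⟨⟨α, mem_kummerField_of_root ha hα⟩, ⟨a, ha, ?_⟩, rfl⟩
    apply Subtype.ext
    rw [SubmonoidClass.coe_pow]
    exact hα

theorem adjoin_roots_kummerField_eq_top (D : Subgroup Kˣ) :
    adjoin K {β : kummerField K Ω n D | ∃ a : Kˣ,
      β ^ n = algebraMap K (kummerField K Ω n D) (a : K)} = ⊤ := by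
  rw [eq_top_iff, ← adjoin_rootsD_eq_top D]
  apply adjoin.mono
  rintro β ⟨a, _, hβ⟩
  exact ⟨a, hβ⟩

/-- `D ≤ Kˣ ∩ K(ⁿ√D)ˣⁿ` -/
theorem le_kummerSubgroup_kummerField
    (hroot : ∀ a ∈ D, ∃ α : Ω, α ^ n = algebraMap K Ω ((a : Kˣ) : K)) :
    D ≤ kummerSubgroup K (kummerField K Ω n D) n := by
  intro a ha
  obtain ⟨α, hα⟩ := hroot a ha
  refine ⟨⟨α, mem_kummerField_of_root ha hα⟩, ?_⟩
  apply Subtype.ext
  rw [SubmonoidClass.coe_pow]
  exact hα

include hz in
theorem kummerField_comm (D : Subgroup Kˣ) (σ τ : kummerField K Ω n D ≃ₐ[K] kummerField K Ω n D) :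
    σ * τ = τ * σ :=
  comm_of_adjoin hz (adjoin_roots_kummerField_eq_top D) σ τ

include hz in
theorem kummerField_exp (D : Subgroup Kˣ) (σ : kummerField K Ω n D ≃ₐ[K] kummerField K Ω n D) :
    σ ^ n = 1 :=
  pow_eq_one_of_adjoin hz (adjoin_roots_kummerField_eq_top D) σ

variable (hPD : (powMonoidHom n : Kˣ →* Kˣ).range ≤ D)
  (hfin : (powMonoidHom n : Kˣ →* Kˣ).range.relIndex D ≠ 0)
  (hroot : ∀ a ∈ D, ∃ α : Ω, α ^ n = algebraMap K Ω ((a : Kˣ) : K))

include hz hPD hfin hroot in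
theorem kummerField_aux :
    kummerSubgroup K (kummerField K Ω n D) n = D ∧
      Module.finrank K (kummerField K Ω n D) =
        (powMonoidHom n : Kˣ →* Kˣ).range.relIndex D := by
  haveI := finiteDimensional_kummerField hz hfin hroot
  haveI := isGalois_kummerField (Ω := Ω) hz D
  have hab := kummerField_comm (Ω := Ω) hz D
  have hexp := kummerField_exp (Ω := Ω) hz D
  have hDD' := le_kummerSubgroup_kummerField (n := n) hroot
  -- left nondegeneracy on `D`
  have hnd : ∀ σ : kummerField K Ω n D ≃ₐ[K] kummerField K Ω n D,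
      (∀ a : D, kummerPairing K (kummerField K Ω n D) n hz σ ⟨a, hDD' a.2⟩ = 1) → σ = 1 := by
    intro σ h
    have hle : adjoin K {β : kummerField K Ω n D | ∃ a ∈ D,
        β ^ n = algebraMap K (kummerField K Ω n D) ((a : Kˣ) : K)} ≤ fixedBy σ := by
      rw [adjoin_le_iff]
      rintro β ⟨a, ha, hβ⟩
      exact (kummerPairing_eq_one_iff hz σ ⟨a, hDD' ha⟩ β hβ).mp (h ⟨a, ha⟩)
    rw [adjoin_rootsD_eq_top] at hle
    apply AlgEquiv.ext
    intro x
    exact hle (mem_top : x ∈ (⊤ : IntermediateField K (kummerField K Ω n D)))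
  have c1 := card_le_relIndex hz hab hexp D hDD' hnd
  have c2 := relIndex_kummerSubgroup hz hab hexp
  rw [← IsGalois.card_aut_eq_finrank] at c2
  have c3 := Subgroup.relIndex_mul_relIndex _ _ _ hPD hDD'
  have hcard : 0 < Nat.card (kummerField K Ω n D ≃ₐ[K] kummerField K Ω n D) := Nat.card_pos
  have hone : D.relIndex (kummerSubgroup K (kummerField K Ω n D) n) = 1 := by
    rw [c2] at c3
    have h1 : (powMonoidHom n : Kˣ →* Kˣ).range.relIndex D *
        D.relIndex (kummerSubgroup K (kummerField K Ω n D) n) ≤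
        (powMonoidHom n : Kˣ →* Kˣ).range.relIndex D * 1 := by
      rw [c3, mul_one]; exact c1
    have h2 := Nat.le_of_mul_le_mul_left h1 (Nat.pos_of_ne_zero hfin)
    have h3 : D.relIndex (kummerSubgroup K (kummerField K Ω n D) n) ≠ 0 := by
      intro h0
      rw [h0, mul_zero] at c3
      omega
    omega
  have heq : kummerSubgroup K (kummerField K Ω n D) n = D :=
    le_antisymm (Subgroup.relIndex_eq_one.mp hone) hDD'
  refine ⟨heq, ?_⟩
  rw [← IsGalois.card_aut_eq_finrank, ← c2, heq]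

include hz hPD hfin hroot in
/-- **Kummer theory**: `Kˣ ∩ K(ⁿ√D)ˣⁿ = D`. -/
theorem kummerSubgroup_kummerField : kummerSubgroup K (kummerField K Ω n D) n = D :=
  (kummerField_aux hz hPD hfin hroot).1

include hz hPD hfin hroot in
/-- **Kummer theory**: `[K(ⁿ√D) : K] = [D : Kˣⁿ]`. -/
theorem finrank_kummerField :
    Module.finrank K (kummerField K Ω n D) = (powMonoidHom n : Kˣ →* Kˣ).range.relIndex D :=
  (kummerField_aux hz hPD hfin hroot).2

include hz in
/-- `D ↦ K(ⁿ√D)` reflects the order -/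
theorem kummerField_le_iff {D₁ D₂ : Subgroup Kˣ}
    (hPD₂ : (powMonoidHom n : Kˣ →* Kˣ).range ≤ D₂)
    (hfin₂ : (powMonoidHom n : Kˣ →* Kˣ).range.relIndex D₂ ≠ 0)
    (hroot₁ : ∀ a ∈ D₁, ∃ α : Ω, α ^ n = algebraMap K Ω ((a : Kˣ) : K))
    (hroot₂ : ∀ a ∈ D₂, ∃ α : Ω, α ^ n = algebraMap K Ω ((a : Kˣ) : K)) :
    kummerField K Ω n D₁ ≤ kummerField K Ω n D₂ ↔ D₁ ≤ D₂ := by
  refine ⟨fun h a ha => ?_, kummerField_mono⟩
  obtain ⟨α, hα⟩ := hroot₁ a ha
  have hmem : α ∈ kummerField K Ω n D₂ := h (mem_kummerField_of_root ha hα)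
  rw [← kummerSubgroup_kummerField hz hPD₂ hfin₂ hroot₂]
  refine ⟨⟨α, hmem⟩, ?_⟩
  apply Subtype.ext
  rw [SubmonoidClass.coe_pow]
  exact hα

include hz in
/-- **Kummer theory, converse**: every finite abelian subextension of exponent `n` is `K(ⁿ√D)`
for `D = Kˣ ∩ Lˣⁿ`. -/
theorem eq_kummerField (L : IntermediateField K Ω) [FiniteDimensional K L] [IsGalois K L]
    (hab : ∀ σ τ : L ≃ₐ[K] L, σ * τ = τ * σ) (hexp : ∀ σ : L ≃ₐ[K] L, σ ^ n = 1) :
    L = kummerField K Ω n (kummerSubgroup K L n) := by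
  apply le_antisymm
  · have htop := adjoin_roots_eq_top hz hab hexp
    have hlift := congrArg IntermediateField.lift htop
    rw [lift_adjoin, lift_top] at hlift
    refine hlift.symm.le.trans ?_
    rw [kummerField]
    apply adjoin.mono
    rintro _ ⟨β, ⟨a, hβ⟩, rfl⟩
    refine ⟨a, ⟨β, hβ⟩, ?_⟩
    have := congrArg Subtype.val hβ
    rwa [SubmonoidClass.coe_pow] at this
  · rw [kummerField, adjoin_le_iff]
    rintro α ⟨a, ⟨β, hβ⟩, hα⟩
    have hβ' : (β : Ω) ^ n = algebraMap K Ω (a : K) := by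
      have := congrArg Subtype.val hβ
      rwa [SubmonoidClass.coe_pow] at this
    obtain ⟨c, hc⟩ := root_eq_mul hz (a := a) (d := a) (b := 1) (by simp) hα hβ'
    rw [hc]
    exact mul_mem (IntermediateField.algebraMap_mem _ _) β.2

end Structure

end Fermat.Agent.S55.Kummer99
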